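import Fermat.Prelude.Def_AlgebraicCurve_BaseChangeGalois

/-!
# S29 / layer M / piece KUM (helper211): Kummer description of `Pic0.torsion K F n`

Prelude-only, generic in `K F` (`[HasPrincipalDivisors K F]`).

* `divOf f : Divisor.degZero` — the divisor of `f : Fˣ`;  `divOfHom : Additive Fˣ →+ degZero`.
* `kummerUnits K F n : Subgroup Fˣ` — functions all of whose orders are divisible by `n`.
* `kummerDiv n f` — the divisor `div(f)/n`;  `kummerHom n : Additive (kummerUnits K F n) →+ Pic0.torsion K F n`.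
* `kummerHom_surjective`, `kummerHom_eq_zero_iff` (kernel = functions `c * g ^ n`, `c` with trivial divisor),
  `kummerHom_eq_zero_iff_pow` (kernel = `n`-th powers when constants are `n`-th powers).
* `kummerHom_smul` — equivariance under `SemilinearAut K F`.
-/

set_option autoImplicit false

noncomputable section

open AlgebraicCurve

namespace Fermat.Agent.S29.H211

variable {K F : Type*} [Field K] [Field F] [Algebra K F]

/-! ### Divisors are determined by their values; torsion-freeness -/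

theorem divisor_ext_of_nsmul {n : ℕ} (hn : n ≠ 0) {D E : Divisor K F}
    (h : n • D = n • E) : D = E := by
  ext v
  have h1 := DFunLike.congr_fun h v
  simp only [Finsupp.smul_apply, nsmul_eq_mul] at h1
  exact mul_left_cancel₀ (by exact_mod_cast hn) h1

theorem degZero_ext_of_nsmul {n : ℕ} (hn : n ≠ 0)
    {D E : Divisor.degZero (K := K) (F := F)} (h : n • D = n • E) : D = E := by
  apply Subtype.ext
  apply divisor_ext_of_nsmul hn
  have := congrArg (Subtype.val) h
  simpa using this

/-! ### The divisor of a function -/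

section DivOf

variable [HasPrincipalDivisors K F]

/-- The divisor of a nonzero function, as a degree-zero divisor. -/
def divOf (f : Fˣ) : Divisor.degZero (K := K) (F := F) :=
  ⟨(HasPrincipalDivisors.exists_divisor (K := K) (f : F) f.ne_zero).choose,
    (HasPrincipalDivisors.exists_divisor (K := K) (f : F) f.ne_zero).choose_spec.2⟩

@[simp]
theorem divOf_apply (f : Fˣ) (v : Place K F) :
    (divOf (K := K) f : Divisor K F) v = v.ord (f : F) :=
  (HasPrincipalDivisors.exists_divisor (K := K) (f : F) f.ne_zero).choose_spec.1 v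

theorem divOf_mem_principal (f : Fˣ) :
    (divOf (K := K) f : Divisor K F) ∈ Divisor.principal (K := K) (F := F) :=
  ⟨f, f.ne_zero, fun v => divOf_apply f v⟩

theorem divOf_mul (f g : Fˣ) : divOf (K := K) (f * g) = divOf f + divOf g := by
  apply Subtype.ext
  ext v
  simp [Place.ord_mul v f.ne_zero g.ne_zero]

theorem divOf_one : divOf (K := K) (1 : Fˣ) = 0 := by
  apply Subtype.ext
  ext v
  simp

theorem divOf_inv (f : Fˣ) : divOf (K := K) f⁻¹ = -divOf f := by
  apply Subtype.ext
  ext v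
  simp [Place.ord_inv]

theorem divOf_pow (f : Fˣ) (n : ℕ) : divOf (K := K) (f ^ n) = n • divOf f := by
  induction n with
  | zero => simp [divOf_one]
  | succ k ih => rw [pow_succ, divOf_mul, ih, succ_nsmul]

/-- `div : Fˣ → Div⁰` as an additive homomorphism. -/
def divOfHom : Additive Fˣ →+ Divisor.degZero (K := K) (F := F) where
  toFun f := divOf (Additive.toMul f)
  map_zero' := divOf_one
  map_add' _ _ := divOf_mul _ _

@[simp]
theorem divOfHom_apply (f : Fˣ) : divOfHom (K := K) (Additive.ofMul f) = divOf f := rfl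

/-- A degree-zero divisor is principal iff it is `divOf f` for some `f`. -/
theorem mem_principal_iff_eq_divOf (D : Divisor.degZero (K := K) (F := F)) :
    (D : Divisor K F) ∈ Divisor.principal (K := K) (F := F) ↔ ∃ f : Fˣ, D = divOf f := by
  constructor
  · rintro ⟨f, hf, hD⟩
    refine ⟨Units.mk0 f hf, Subtype.ext ?_⟩
    ext v
    rw [hD v, divOf_apply]
    rfl
  · rintro ⟨f, rfl⟩
    exact divOf_mem_principal f

theorem pic0_mk_eq_zero_iff (D : Divisor.degZero (K := K) (F := F)) :
    Pic0.mk D = 0 ↔ ∃ f : Fˣ, D = divOf f := by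
  rw [← mem_principal_iff_eq_divOf]
  unfold Pic0.mk
  rw [QuotientAddGroup.eq_zero_iff, AddSubgroup.mem_addSubgroupOf]

theorem pic0_mk_divOf (f : Fˣ) : Pic0.mk (divOf (K := K) f) = 0 :=
  (pic0_mk_eq_zero_iff _).mpr ⟨f, rfl⟩

end DivOf

/-! ### Kummer units and the Kummer map -/

variable (K F) in
/-- Functions whose divisor is divisible by `n`. -/
def kummerUnits (n : ℕ) : Subgroup Fˣ where
  carrier := {f | ∀ v : Place K F, (n : ℤ) ∣ v.ord (f : F)}
  one_mem' := fun v => by simp
  mul_mem' := by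
    intro f g hf hg v
    rw [Units.val_mul, Place.ord_mul v f.ne_zero g.ne_zero]
    exact dvd_add (hf v) (hg v)
  inv_mem' := by
    intro f hf v
    rw [Units.val_inv_eq_inv_val, Place.ord_inv]
    exact (dvd_neg).mpr (hf v)

theorem mem_kummerUnits {n : ℕ} {f : Fˣ} :
    f ∈ kummerUnits K F n ↔ ∀ v : Place K F, (n : ℤ) ∣ v.ord (f : F) := Iff.rfl

theorem pow_mem_kummerUnits (n : ℕ) (g : Fˣ) : g ^ n ∈ kummerUnits K F n := by
  intro v
  rw [Units.val_pow_eq_pow_val, ← zpow_natCast, Place.ord_zpow]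
  exact dvd_mul_right _ _

section Kummer

variable [HasPrincipalDivisors K F]

theorem exists_nsmul_eq_divOf {n : ℕ} (hn : n ≠ 0) (f : kummerUnits K F n) :
    ∃ D : Divisor.degZero (K := K) (F := F), n • D = divOf (f : Fˣ) := by
  classical
  have hn' : (n : ℤ) ≠ 0 := by exact_mod_cast hn
  let E : Divisor K F :=
    Finsupp.mapRange (fun a : ℤ => a / (n : ℤ)) (by simp) (divOf (K := K) (f : Fˣ) : Divisor K F)
  have hE : n • E = (divOf (K := K) (f : Fˣ) : Divisor K F) := by
    ext v
    simp only [E, Finsupp.smul_apply, Finsupp.mapRange_apply, nsmul_eq_mul, divOf_apply]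
    exact Int.mul_ediv_cancel' (f.2 v)
  have hdeg : Divisor.degree E = 0 := by
    have h1 : Divisor.degree (n • E) = 0 := by
      rw [hE]
      exact (divOf (K := K) (f : Fˣ)).2
    rw [map_nsmul, nsmul_eq_mul] at h1
    rcases mul_eq_zero.mp h1 with h | h
    · exact absurd h hn'
    · exact h
  exact ⟨⟨E, hdeg⟩, Subtype.ext (by simpa using hE)⟩

/-- The divisor `div(f) / n` of a Kummer unit. -/
def kummerDiv {n : ℕ} (hn : n ≠ 0) (f : kummerUnits K F n) :
    Divisor.degZero (K := K) (F := F) :=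
  (exists_nsmul_eq_divOf hn f).choose

theorem nsmul_kummerDiv {n : ℕ} (hn : n ≠ 0) (f : kummerUnits K F n) :
    n • kummerDiv hn f = divOf (K := K) (f : Fˣ) :=
  (exists_nsmul_eq_divOf hn f).choose_spec

theorem kummerDiv_eq_iff {n : ℕ} (hn : n ≠ 0) (f : kummerUnits K F n)
    (D : Divisor.degZero (K := K) (F := F)) :
    kummerDiv hn f = D ↔ n • D = divOf (K := K) (f : Fˣ) := by
  constructor
  · rintro rfl
    exact nsmul_kummerDiv hn f
  · intro h
    exact degZero_ext_of_nsmul hn ((nsmul_kummerDiv hn f).trans h.symm)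

theorem natCast_mul_kummerDiv_apply {n : ℕ} (hn : n ≠ 0) (f : kummerUnits K F n)
    (v : Place K F) :
    (n : ℤ) * (kummerDiv hn f : Divisor K F) v = v.ord ((f : Fˣ) : F) := by
  have h := congrArg (fun D : Divisor.degZero (K := K) (F := F) => (D : Divisor K F) v)
    (nsmul_kummerDiv hn f)
  simpa using h

theorem kummerDiv_mul {n : ℕ} (hn : n ≠ 0) (f g : kummerUnits K F n) :
    kummerDiv hn (f * g) = kummerDiv hn f + kummerDiv hn g := by
  rw [kummerDiv_eq_iff, smul_add, nsmul_kummerDiv, nsmul_kummerDiv]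
  exact (divOf_mul _ _).symm

theorem kummerDiv_one {n : ℕ} (hn : n ≠ 0) :
    kummerDiv (K := K) (F := F) hn 1 = 0 := by
  rw [kummerDiv_eq_iff, smul_zero]
  exact divOf_one.symm

theorem kummerDiv_pow {n : ℕ} (hn : n ≠ 0) (g : Fˣ) :
    kummerDiv (K := K) hn ⟨g ^ n, pow_mem_kummerUnits n g⟩ = divOf g := by
  rw [kummerDiv_eq_iff]
  exact (divOf_pow g n).symm

theorem pic0_mk_kummerDiv_mem_torsion {n : ℕ} (hn : n ≠ 0) (f : kummerUnits K F n) :
    Pic0.mk (kummerDiv hn f) ∈ Pic0.torsion K F n := by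
  rw [Pic0.mem_torsion, natCast_zsmul]
  have : n • Pic0.mk (kummerDiv hn f) = Pic0.mk (n • kummerDiv hn f) := by
    unfold Pic0.mk
    rfl
  rw [this, nsmul_kummerDiv]
  exact pic0_mk_divOf _

/-- **The Kummer map** `{f : div f ∈ n Div} → Pic⁰[n]`, `f ↦ [div(f)/n]`. -/
def kummerHom {n : ℕ} (hn : n ≠ 0) : Additive (kummerUnits K F n) →+ Pic0.torsion K F n where
  toFun f := ⟨Pic0.mk (kummerDiv hn (Additive.toMul f)), pic0_mk_kummerDiv_mem_torsion hn _⟩
  map_zero' := Subtype.ext (by
    show Pic0.mk (kummerDiv hn (1 : kummerUnits K F n)) = 0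
    rw [kummerDiv_one]; rfl)
  map_add' f g := Subtype.ext (by
    show Pic0.mk (kummerDiv hn (Additive.toMul f * Additive.toMul g)) = _
    rw [kummerDiv_mul]; rfl)

@[simp]
theorem coe_kummerHom {n : ℕ} (hn : n ≠ 0) (f : kummerUnits K F n) :
    ((kummerHom hn (Additive.ofMul f) : Pic0.torsion K F n) : Pic0 K F)
      = Pic0.mk (kummerDiv hn f) := rfl

/-- Every `n`-torsion class is a Kummer class. -/
theorem kummerHom_surjective {n : ℕ} (hn : n ≠ 0) :
    Function.Surjective (kummerHom (K := K) (F := F) hn) := by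
  rintro ⟨x, hx⟩
  obtain ⟨D, rfl⟩ := Pic0.mk_surjective x
  rw [Pic0.mem_torsion, natCast_zsmul] at hx
  have h1 : Pic0.mk (n • D) = 0 := hx
  obtain ⟨f, hf⟩ := (pic0_mk_eq_zero_iff _).mp h1
  have hfmem : f ∈ kummerUnits K F n := by
    intro v
    have := congrArg (fun E : Divisor.degZero (K := K) (F := F) => (E : Divisor K F) v) hf
    simp only [AddSubgroup.coe_nsmul, Finsupp.smul_apply, nsmul_eq_mul, divOf_apply] at this
    exact ⟨_, this.symm⟩
  refine ⟨Additive.ofMul ⟨f, hfmem⟩, Subtype.ext ?_⟩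
  rw [coe_kummerHom]
  congr 1
  rw [kummerDiv_eq_iff]
  exact hf

/-- A `n`-torsion class given by a divisor `D` with `n • D = div f`. -/
theorem kummerHom_eq_mk {n : ℕ} (hn : n ≠ 0) (f : kummerUnits K F n)
    (D : Divisor.degZero (K := K) (F := F)) (h : n • D = divOf (K := K) (f : Fˣ)) :
    ((kummerHom hn (Additive.ofMul f) : Pic0.torsion K F n) : Pic0 K F) = Pic0.mk D := by
  rw [coe_kummerHom, (kummerDiv_eq_iff hn f D).mpr h]

/-- Kernel of the Kummer map: `f = c * g ^ n` with `c` of trivial divisor. -/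
theorem kummerHom_eq_zero_iff {n : ℕ} (hn : n ≠ 0) (f : kummerUnits K F n) :
    kummerHom hn (Additive.ofMul f) = 0 ↔
      ∃ g : Fˣ, ∀ v : Place K F, v.ord (((f : Fˣ) : F) * ((g : F) ^ n)⁻¹) = 0 := by
  have hn' : (n : ℤ) ≠ 0 := by exact_mod_cast hn
  rw [← Subtype.coe_inj, coe_kummerHom]
  show Pic0.mk (kummerDiv hn f) = 0 ↔ _
  rw [pic0_mk_eq_zero_iff]
  constructor
  · rintro ⟨g, hg⟩
    refine ⟨g, fun v => ?_⟩
    have h1 := natCast_mul_kummerDiv_apply hn f v
    rw [hg, divOf_apply] at h1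
    rw [Place.ord_mul v (f : Fˣ).ne_zero (inv_ne_zero (pow_ne_zero n g.ne_zero)),
      Place.ord_inv, ← zpow_natCast, Place.ord_zpow, ← h1]
    ring
  · rintro ⟨g, hg⟩
    refine ⟨g, ?_⟩
    rw [kummerDiv_eq_iff]
    apply Subtype.ext
    ext v
    have h1 := hg v
    rw [Place.ord_mul v (f : Fˣ).ne_zero (inv_ne_zero (pow_ne_zero n g.ne_zero)),
      Place.ord_inv, ← zpow_natCast, Place.ord_zpow] at h1
    simp only [AddSubgroup.coe_nsmul, Finsupp.smul_apply, nsmul_eq_mul, divOf_apply]
    linarith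

/-- Kernel of the Kummer map when the functions with trivial divisor are the constants and
constants are `n`-th powers (e.g. `K` algebraically closed): exactly the `n`-th powers. -/
theorem kummerHom_eq_zero_iff_pow {n : ℕ} (hn : n ≠ 0)
    (hconst : ∀ f : F, f ≠ 0 → (∀ v : Place K F, v.ord f = 0) → ∃ c : K, algebraMap K F c = f)
    (hroot : ∀ c : K, ∃ d : K, d ^ n = c)
    (f : kummerUnits K F n) :
    kummerHom hn (Additive.ofMul f) = 0 ↔ ∃ g : Fˣ, ((f : Fˣ) : F) = (g : F) ^ n := by
  rw [kummerHom_eq_zero_iff]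
  constructor
  · rintro ⟨g, hg⟩
    have hne : ((f : Fˣ) : F) * ((g : F) ^ n)⁻¹ ≠ 0 :=
      mul_ne_zero (f : Fˣ).ne_zero (inv_ne_zero (pow_ne_zero n g.ne_zero))
    obtain ⟨c, hc⟩ := hconst _ hne hg
    obtain ⟨d, hd⟩ := hroot c
    have hd0 : algebraMap K F d ≠ 0 := by
      intro h0
      apply hne
      rw [← hc, ← hd, map_pow, h0, zero_pow hn]
    refine ⟨Units.mk0 (algebraMap K F d) hd0 * g, ?_⟩
    have hgn : (g : F) ^ n ≠ 0 := pow_ne_zero n g.ne_zero
    rw [Units.val_mul, Units.val_mk0, mul_pow, ← map_pow, hd, hc]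
    field_simp
  · rintro ⟨g, hg⟩
    refine ⟨g, fun v => ?_⟩
    rw [hg, mul_inv_cancel₀ (pow_ne_zero n g.ne_zero), Place.ord_one]

end Kummer

/-! ### Equivariance under semilinear automorphisms -/

section Equivariant

/-- The action of a semilinear automorphism on units of `F`. -/
def smulUnit (g : SemilinearAut K F) (f : Fˣ) : Fˣ :=
  Units.map (SemilinearAut.toRingAut g : F →* F) f

@[simp]
theorem coe_smulUnit (g : SemilinearAut K F) (f : Fˣ) :
    ((smulUnit g f : Fˣ) : F) = g • (f : F) := rfl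

theorem ord_smulUnit (g : SemilinearAut K F) (f : Fˣ) (w : Place K F) :
    w.ord ((smulUnit g f : Fˣ) : F) = (g⁻¹ • w).ord (f : F) := by
  have h := SemilinearAut.ord_smul g (g⁻¹ • w) (f : F)
  rw [smul_inv_smul] at h
  exact h

theorem smulUnit_mem_kummerUnits (g : SemilinearAut K F) {n : ℕ} {f : Fˣ}
    (hf : f ∈ kummerUnits K F n) : smulUnit g f ∈ kummerUnits K F n := by
  intro w
  rw [ord_smulUnit]
  exact hf _

variable [HasPrincipalDivisors K F]

theorem divOf_smulUnit (g : SemilinearAut K F) (f : Fˣ) :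
    divOf (K := K) (smulUnit g f) = SemilinearAut.degZeroSMulHom g (divOf f) := by
  apply Subtype.ext
  ext w
  rw [divOf_apply, SemilinearAut.coe_degZeroSMulHom, SemilinearAut.divisor_smul_apply,
    divOf_apply, ord_smulUnit]

theorem kummerDiv_smulUnit (g : SemilinearAut K F) {n : ℕ} (hn : n ≠ 0)
    (f : kummerUnits K F n) :
    kummerDiv hn ⟨smulUnit g (f : Fˣ), smulUnit_mem_kummerUnits g f.2⟩
      = SemilinearAut.degZeroSMulHom g (kummerDiv hn f) := by
  rw [kummerDiv_eq_iff, ← map_nsmul, nsmul_kummerDiv]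
  exact (divOf_smulUnit g (f : Fˣ)).symm

/-- **Equivariance of the Kummer map**: `g • κ(f) = κ(g • f)`. -/
theorem kummerHom_smul (g : SemilinearAut K F) {n : ℕ} (hn : n ≠ 0)
    (f : kummerUnits K F n) :
    g • kummerHom hn (Additive.ofMul f)
      = kummerHom hn (Additive.ofMul ⟨smulUnit g (f : Fˣ), smulUnit_mem_kummerUnits g f.2⟩) := by
  apply Subtype.ext
  rw [SemilinearAut.coe_torsion_smul, coe_kummerHom, coe_kummerHom, kummerDiv_smulUnit,
    SemilinearAut.pic0_smul_mk]

end Equivariant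

end Fermat.Agent.S29.H211
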