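import Fermat.Agent.S29.H211.Kummer
import Fermat.Prelude.Def_AlgebraicCurve_Correspondence

/-!
# S29 / layer M / piece KUM–NORM (helper211): correspondences on Kummer classes

Prelude-only.  For `φ ψ : F →ₐ[K] F'` and the Prelude correspondence
`Pic0.correspondence φ ψ = (pushforward along ψ) ∘ (pullback along φ)`:

`Pic0.correspondence φ ψ … (κ f) = κ (Norm_ψ (φ f))`   (`kummerHom_correspondence`)

where `κ = kummerHom` is the Kummer map of `Kummer.lean`.  Also the two halves
`kummerDiv_pullbackAlong`, `kummerDiv_pushforwardAlong`.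
-/

set_option autoImplicit false
set_option linter.style.haveILetI false

noncomputable section

open AlgebraicCurve

namespace Fermat.Agent.S29.H211

variable {K F F' : Type*} [Field K] [Field F] [Field F'] [Algebra K F] [Algebra K F']

/-- The norm of `g : F'` down to `F` along `ψ : F →ₐ[K] F'`. -/
def normAlong (ψ : F →ₐ[K] F') (g : F') : F :=
  letI := algebraAlong ψ
  Algebra.norm F g

theorem normAlong_ne_zero (ψ : F →ₐ[K] F') (hfin : FiniteAlong K ψ) {g : F'} (hg : g ≠ 0) :
    normAlong ψ g ≠ 0 := by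
  letI := algebraAlong ψ
  haveI : Module.Finite F F' := hfin
  exact Algebra.norm_ne_zero_iff.mpr hg

/-- The image of a unit under an algebra map, as a unit. -/
def mapUnit (φ : F →ₐ[K] F') (f : Fˣ) : F'ˣ := Units.map (φ : F →* F') f

@[simp]
theorem coe_mapUnit (φ : F →ₐ[K] F') (f : Fˣ) : ((mapUnit φ f : F'ˣ) : F') = φ (f : F) := rfl

/-- The norm of a unit, as a unit. -/
def normUnit (ψ : F →ₐ[K] F') (hfin : FiniteAlong K ψ) (g : F'ˣ) : Fˣ :=
  Units.mk0 (normAlong ψ (g : F')) (normAlong_ne_zero ψ hfin g.ne_zero)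

@[simp]
theorem coe_normUnit (ψ : F →ₐ[K] F') (hfin : FiniteAlong K ψ) (g : F'ˣ) :
    ((normUnit ψ hfin g : Fˣ) : F) = normAlong ψ (g : F') := rfl

section Pullback

variable [HasPrincipalDivisors K F] [HasPrincipalDivisors K F']
variable (φ : F →ₐ[K] F') (hφ : φ.toRingHom.IsIntegral)

/-- `φ^* (div f) = div (φ f)`. -/
theorem pullbackAlong_divOf (f : Fˣ) :
    Divisor.pullbackAlong φ hφ (divOf (K := K) f : Divisor K F)
      = (divOf (K := K) (mapUnit φ f) : Divisor K F') := by
  letI := algebraAlong φ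
  haveI := isScalarTower_along φ
  haveI := isIntegral_along φ hφ
  ext w
  rw [divOf_apply]
  exact Divisor.pullback_apply_eq_ord (fun v => divOf_apply f v) w

theorem ord_map_eq (f : Fˣ) (w : Place K F') :
    w.ord (φ (f : F)) = Divisor.pullbackAlong φ hφ (divOf (K := K) f : Divisor K F) w := by
  rw [pullbackAlong_divOf, divOf_apply, coe_mapUnit]

include hφ in
theorem mapUnit_mem_kummerUnits {n : ℕ} {f : Fˣ} (hn : n ≠ 0) (hf : f ∈ kummerUnits K F n) :
    mapUnit φ f ∈ kummerUnits K F' n := by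
  intro w
  have h1 : (divOf (K := K) f : Divisor K F)
      = n • (kummerDiv hn ⟨f, hf⟩ : Divisor K F) := by
    have := congrArg (Subtype.val) (nsmul_kummerDiv (K := K) hn ⟨f, hf⟩)
    simpa using this.symm
  rw [coe_mapUnit, ord_map_eq φ hφ, h1, map_nsmul, Finsupp.smul_apply, nsmul_eq_mul]
  exact dvd_mul_right _ _

/-- `φ^* (div(f)/n) = div(φ f)/n`. -/
theorem kummerDiv_pullbackAlong {n : ℕ} (hn : n ≠ 0) (f : kummerUnits K F n) :
    Divisor.pullbackAlong φ hφ (kummerDiv hn f : Divisor K F)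
      = (kummerDiv hn ⟨mapUnit φ (f : Fˣ), mapUnit_mem_kummerUnits φ hφ hn f.2⟩ :
          Divisor K F') := by
  apply divisor_ext_of_nsmul hn
  rw [← map_nsmul]
  have h1 : n • (kummerDiv hn f : Divisor K F) = (divOf (K := K) (f : Fˣ) : Divisor K F) := by
    have := congrArg (Subtype.val) (nsmul_kummerDiv (K := K) hn f)
    simpa using this
  have h2 : n • (kummerDiv hn ⟨mapUnit φ (f : Fˣ), mapUnit_mem_kummerUnits φ hφ hn f.2⟩ :
      Divisor K F') = (divOf (K := K) (mapUnit φ (f : Fˣ)) : Divisor K F') := by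
    have := congrArg (Subtype.val)
      (nsmul_kummerDiv (K := K) hn ⟨mapUnit φ (f : Fˣ), mapUnit_mem_kummerUnits φ hφ hn f.2⟩)
    simpa using this
  rw [h1, h2, pullbackAlong_divOf]

end Pullback

section Pushforward

variable [HasPrincipalDivisors K F] [HasPrincipalDivisors K F']
variable (ψ : F →ₐ[K] F') (hψ : ψ.toRingHom.IsIntegral)
variable (hfin : FiniteAlong K ψ) (hN : NormFormulaAlong K ψ hfin)

include hN in
/-- `ψ_* (div g) = div (Norm_ψ g)`. -/
theorem pushforwardAlong_divOf (g : F'ˣ) :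
    Divisor.pushforwardAlong ψ hψ (divOf (K := K) g : Divisor K F')
      = (divOf (K := K) (normUnit ψ hfin g) : Divisor K F) := by
  letI := algebraAlong ψ
  haveI := isScalarTower_along ψ
  haveI := isIntegral_along ψ hψ
  haveI : Module.Finite F F' := hfin
  ext v
  rw [divOf_apply]
  exact hN (g : F') g.ne_zero _ (fun w => divOf_apply g w) v

include hN in
theorem ord_normAlong_eq (g : F'ˣ) (v : Place K F) :
    v.ord (normAlong ψ (g : F'))
      = Divisor.pushforwardAlong ψ hψ (divOf (K := K) g : Divisor K F') v := by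
  rw [pushforwardAlong_divOf ψ hψ hfin hN, divOf_apply, coe_normUnit]

include hψ hN in
theorem normUnit_mem_kummerUnits {n : ℕ} {g : F'ˣ} (hn : n ≠ 0)
    (hg : g ∈ kummerUnits K F' n) : normUnit ψ hfin g ∈ kummerUnits K F n := by
  intro v
  have h1 : (divOf (K := K) g : Divisor K F')
      = n • (kummerDiv hn ⟨g, hg⟩ : Divisor K F') := by
    have := congrArg (Subtype.val) (nsmul_kummerDiv (K := K) hn ⟨g, hg⟩)
    simpa using this.symm
  rw [coe_normUnit, ord_normAlong_eq ψ hψ hfin hN, h1, map_nsmul, Finsupp.smul_apply,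
    nsmul_eq_mul]
  exact dvd_mul_right _ _

include hN in
/-- `ψ_* (div(g)/n) = div(Norm_ψ g)/n`. -/
theorem kummerDiv_pushforwardAlong {n : ℕ} (hn : n ≠ 0) (g : kummerUnits K F' n) :
    Divisor.pushforwardAlong ψ hψ (kummerDiv hn g : Divisor K F')
      = (kummerDiv hn ⟨normUnit ψ hfin (g : F'ˣ),
          normUnit_mem_kummerUnits ψ hψ hfin hN hn g.2⟩ : Divisor K F) := by
  apply divisor_ext_of_nsmul hn
  rw [← map_nsmul]
  have h1 : n • (kummerDiv hn g : Divisor K F') = (divOf (K := K) (g : F'ˣ) : Divisor K F') := by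
    have := congrArg (Subtype.val) (nsmul_kummerDiv (K := K) hn g)
    simpa using this
  have h2 : n • (kummerDiv hn ⟨normUnit ψ hfin (g : F'ˣ),
      normUnit_mem_kummerUnits ψ hψ hfin hN hn g.2⟩ : Divisor K F)
      = (divOf (K := K) (normUnit ψ hfin (g : F'ˣ)) : Divisor K F) := by
    have := congrArg (Subtype.val)
      (nsmul_kummerDiv (K := K) hn ⟨normUnit ψ hfin (g : F'ˣ),
        normUnit_mem_kummerUnits ψ hψ hfin hN hn g.2⟩)
    simpa using this
  rw [h1, h2, pushforwardAlong_divOf ψ hψ hfin hN]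

end Pushforward

section Correspondence

variable [HasPrincipalDivisors K F] [HasPrincipalDivisors K F']
variable (φ ψ : F →ₐ[K] F') (hφ : φ.toRingHom.IsIntegral) (hψ : ψ.toRingHom.IsIntegral)
variable (hFI : FundamentalIdentityAlong K φ hφ)
variable (hfin : FiniteAlong K ψ) (hN : NormFormulaAlong K ψ hfin)

/-- The function `Norm_ψ (φ f)` attached to a correspondence. -/
def corrUnit (f : Fˣ) : Fˣ := normUnit ψ hfin (mapUnit φ f)

omit [HasPrincipalDivisors K F] [HasPrincipalDivisors K F'] in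
@[simp]
theorem coe_corrUnit (f : Fˣ) :
    ((corrUnit φ ψ hfin f : Fˣ) : F) = normAlong ψ (φ (f : F)) := rfl

include hφ hψ hN in
theorem corrUnit_mem_kummerUnits {n : ℕ} {f : Fˣ} (hn : n ≠ 0) (hf : f ∈ kummerUnits K F n) :
    corrUnit φ ψ hfin f ∈ kummerUnits K F n :=
  normUnit_mem_kummerUnits ψ hψ hfin hN hn (mapUnit_mem_kummerUnits φ hφ hn hf)

/-- The correspondence on divisors maps `div(f)/n` to `div(Norm_ψ(φ f))/n`. -/
theorem kummerDiv_correspondence {n : ℕ} (hn : n ≠ 0) (f : kummerUnits K F n) :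
    Divisor.correspondence φ ψ hφ hψ (kummerDiv hn f : Divisor K F)
      = (kummerDiv hn ⟨corrUnit φ ψ hfin (f : Fˣ),
          corrUnit_mem_kummerUnits φ ψ hφ hψ hfin hN hn f.2⟩ : Divisor K F) := by
  rw [Divisor.correspondence_apply, kummerDiv_pullbackAlong φ hφ hn f,
    kummerDiv_pushforwardAlong ψ hψ hfin hN hn]
  rfl

/-- **Correspondences on Kummer classes**:
`Pic0.correspondence φ ψ (κ f) = κ (Norm_ψ (φ f))`. -/
theorem kummerHom_correspondence {n : ℕ} (hn : n ≠ 0) (f : kummerUnits K F n) :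
    Pic0.correspondence φ ψ hφ hψ hFI hfin hN
        ((kummerHom hn (Additive.ofMul f) : Pic0.torsion K F n) : Pic0 K F)
      = ((kummerHom hn (Additive.ofMul ⟨corrUnit φ ψ hfin (f : Fˣ),
          corrUnit_mem_kummerUnits φ ψ hφ hψ hfin hN hn f.2⟩) : Pic0.torsion K F n) :
          Pic0 K F) := by
  rw [coe_kummerHom, coe_kummerHom, Pic0.correspondence_mk]
  congr 1
  apply Subtype.ext
  rw [Pic0.coe_degZeroCorrespondence]
  exact kummerDiv_correspondence φ ψ hφ hψ hfin hN hn f

end Correspondence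

end Fermat.Agent.S29.H211
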