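import Fermat.Agent.S29.H211.KummerCorr
import Fermat.Prelude.Def_ModularCurve_HeckeModule

/-!
# S29 / layer M / piece KUM–NORM (helper211): the Prelude Hecke operator on Kummer classes

For the Prelude Hecke operator `T_ℓ = (pushforward along α) ∘ (pullback along β)` on
`Pic0 L (L · F_N)` (`α` = inclusion `F_N ⊆ F_{Nℓ}`, `β f = f(q^ℓ)`):

`T_ℓ (κ f) = κ (Norm_α (β f))`      (`heckeOperatorAlong_kummerHom`, `heckeOperatorBar_kummerHom`)

Prelude-only; the six Hecke inputs are explicit hypotheses (as in Prelude `heckeOperatorAlong_eq`).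
-/

set_option autoImplicit false

noncomputable section

open AlgebraicCurve ModularCurve

namespace Fermat.Agent.S29.H211

/-- The function field `L · F_N` (Prelude `laurentBaseChange L (modularFunctionFieldFull N)`) as a
type. -/
abbrev FFL (L : Type*) [Field L] [Algebra ℚ L] (N : ℕ) : Type _ :=
  ↥(laurentBaseChange L (modularFunctionFieldFull N))

section Along

variable {L : Type*} [Field L] [Algebra ℚ L] {N ℓ : ℕ} [NeZero N] [NeZero ℓ]

/-- The function `Norm_α (f(q^ℓ))` attached to `T_ℓ`. -/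
def heckeNormUnit (hfin : FiniteAlong L (heckeAlphaBar L N ℓ)) (f : (FFL L N)ˣ) : (FFL L N)ˣ :=
  corrUnit (heckeBetaBar L N ℓ) (heckeAlphaBar L N ℓ) hfin f

theorem coe_heckeNormUnit (hfin : FiniteAlong L (heckeAlphaBar L N ℓ)) (f : (FFL L N)ˣ) :
    ((heckeNormUnit hfin f : (FFL L N)ˣ) : FFL L N)
      = normAlong (heckeAlphaBar L N ℓ) (heckeBetaBar L N ℓ (f : FFL L N)) := rfl

variable [HasPrincipalDivisors L (FFL L N)] [HasPrincipalDivisors L (FFL L (N * ℓ))]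

theorem heckeNormUnit_mem_kummerUnits
    (hα : HeckeAlphaBarIntegral L N ℓ) (hβ : HeckeBetaBarIntegral L N ℓ)
    (hfin : FiniteAlong L (heckeAlphaBar L N ℓ))
    (hN : NormFormulaAlong L (heckeAlphaBar L N ℓ) hfin)
    {n : ℕ} (hn : n ≠ 0) {f : (FFL L N)ˣ} (hf : f ∈ kummerUnits L (FFL L N) n) :
    heckeNormUnit hfin f ∈ kummerUnits L (FFL L N) n :=
  corrUnit_mem_kummerUnits (heckeBetaBar L N ℓ) (heckeAlphaBar L N ℓ) hβ hα hfin hN hn hf

/-- The Kummer unit `Norm_α (f(q^ℓ))`. -/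
def heckeKummerUnit
    (hα : HeckeAlphaBarIntegral L N ℓ) (hβ : HeckeBetaBarIntegral L N ℓ)
    (hfin : FiniteAlong L (heckeAlphaBar L N ℓ))
    (hN : NormFormulaAlong L (heckeAlphaBar L N ℓ) hfin)
    {n : ℕ} (hn : n ≠ 0) (f : kummerUnits L (FFL L N) n) : kummerUnits L (FFL L N) n :=
  ⟨heckeNormUnit hfin (f : (FFL L N)ˣ), heckeNormUnit_mem_kummerUnits hα hβ hfin hN hn f.2⟩

/-- **`T_ℓ` on Kummer classes** (general coefficient field `L`). -/
theorem heckeOperatorAlong_kummerHom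
    (hα : HeckeAlphaBarIntegral L N ℓ) (hβ : HeckeBetaBarIntegral L N ℓ)
    (hFI : FundamentalIdentityAlong L (heckeBetaBar L N ℓ) hβ)
    (hfin : FiniteAlong L (heckeAlphaBar L N ℓ))
    (hN : NormFormulaAlong L (heckeAlphaBar L N ℓ) hfin)
    {n : ℕ} (hn : n ≠ 0) (f : kummerUnits L (FFL L N) n) :
    heckeOperatorAlong L N ℓ
        ((kummerHom hn (Additive.ofMul f) : Pic0.torsion L (FFL L N) n) : Pic0 L (FFL L N))
      = ((kummerHom hn (Additive.ofMul (heckeKummerUnit hα hβ hfin hN hn f)) :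
          Pic0.torsion L (FFL L N) n) : Pic0 L (FFL L N)) := by
  rw [heckeOperatorAlong_eq hα hβ hFI hfin hN]
  exact kummerHom_correspondence (heckeBetaBar L N ℓ) (heckeAlphaBar L N ℓ) hβ hα hFI hfin hN hn f

end Along

section Bar

variable {N : ℕ} [NeZero N] (ℓ : Nat.Primes) [NeZero (ℓ : ℕ)]
variable [HasPrincipalDivisors (AlgebraicClosure ℚ) (FFL (AlgebraicClosure ℚ) N)]
variable [HasPrincipalDivisors (AlgebraicClosure ℚ) (FFL (AlgebraicClosure ℚ) (N * (ℓ : ℕ)))]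

/-- **`T_ℓ` on Kummer classes of `J₀(N)(ℚ̄)`**: `T_ℓ (κ f) = κ (Norm_α (f(q^ℓ)))`.
(`FFL (AlgebraicClosure ℚ) N` is the carrier of Prelude `modularFunctionFieldBar N`, and
`Pic0 (AlgebraicClosure ℚ) (FFL (AlgebraicClosure ℚ) N)` is Prelude `JZero N`.) -/
theorem heckeOperatorBar_kummerHom
    (hα : HeckeAlphaBarIntegral (AlgebraicClosure ℚ) N (ℓ : ℕ))
    (hβ : HeckeBetaBarIntegral (AlgebraicClosure ℚ) N (ℓ : ℕ))
    (hFI : FundamentalIdentityAlong (AlgebraicClosure ℚ)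
        (heckeBetaBar (AlgebraicClosure ℚ) N (ℓ : ℕ)) hβ)
    (hfin : FiniteAlong (AlgebraicClosure ℚ) (heckeAlphaBar (AlgebraicClosure ℚ) N (ℓ : ℕ)))
    (hN : NormFormulaAlong (AlgebraicClosure ℚ) (heckeAlphaBar (AlgebraicClosure ℚ) N (ℓ : ℕ)) hfin)
    {n : ℕ} (hn : n ≠ 0) (f : kummerUnits (AlgebraicClosure ℚ) (FFL (AlgebraicClosure ℚ) N) n) :
    heckeOperatorBar N ℓ
        ((kummerHom hn (Additive.ofMul f) :
          Pic0.torsion (AlgebraicClosure ℚ) (FFL (AlgebraicClosure ℚ) N) n) : JZero N)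
      = ((kummerHom hn (Additive.ofMul (heckeKummerUnit hα hβ hfin hN hn f)) :
          Pic0.torsion (AlgebraicClosure ℚ) (FFL (AlgebraicClosure ℚ) N) n) : JZero N) :=
  heckeOperatorAlong_kummerHom hα hβ hFI hfin hN hn f

end Bar

end Fermat.Agent.S29.H211
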